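import Fermat.Agent.S37.H508.RimDefs
import Fermat.Agent.S37.H700.GaussMain

/-!
# S37 / node_rim assembly (helper508, deputy): the two modular charts

* `jInt A N`, `jInvInt A N` : `j` and `j⁻¹` as elements of `H518.IntFun A (residue A) N`;
* `finChart A N`, `infChart A N` : the subalgebras of `IntFun` of functions integral over
  `A[j]`, resp. `A[j⁻¹]`;
* `rim_of_twoCharts` : the Prelude statement `ReductionInputsModL A N` from a
  `H518.TwoCharts` structure on these two charts.

Everything in this file is fully proved.
-/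

set_option autoImplicit false

noncomputable section

namespace Fermat.Agent.S37.H508

open ModularCurve HahnSeries AlgebraicCurve Polynomial Fermat.Agent.S37.H518
open Fermat.Agent.S37.Core

section Inverse

variable (R : Type*) [CommRing R]

theorem constantCoeff_jNum_map :
    PowerSeries.constantCoeff (jNum.map (Int.castRingHom R)) = ((1 : Rˣ) : R) := by
  rw [← PowerSeries.coeff_zero_eq_constantCoeff, PowerSeries.coeff_map,
    PowerSeries.coeff_zero_eq_constantCoeff, constantCoeff_jNum]
  simp

theorem jInvS_mul_jqModC : jInvS R * jqModC R = 1 := by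
  have h := PowerSeries.mul_invOfUnit (jNum.map (Int.castRingHom R)) 1
    (constantCoeff_jNum_map R)
  have h2 : HahnSeries.ofPowerSeries ℤ R (jNum.map (Int.castRingHom R)) *
      HahnSeries.ofPowerSeries ℤ R (PowerSeries.invOfUnit (jNum.map (Int.castRingHom R)) 1)
        = 1 := by
    rw [← map_mul, h, map_one]
  have h3 : (HahnSeries.single (1 : ℤ) (1 : R)) * HahnSeries.single (-1 : ℤ) (1 : R) = 1 := by
    rw [HahnSeries.single_mul_single]
    simp
  calc jInvS R * jqModC R
      = (HahnSeries.single (1 : ℤ) (1 : R) * HahnSeries.single (-1 : ℤ) (1 : R)) *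
        (HahnSeries.ofPowerSeries ℤ R (jNum.map (Int.castRingHom R)) *
          HahnSeries.ofPowerSeries ℤ R
            (PowerSeries.invOfUnit (jNum.map (Int.castRingHom R)) 1)) := by
        rw [jInvS, jqModC]; ring
    _ = 1 := by rw [h2, h3, mul_one]

theorem jqModC_mul_jInvS : jqModC R * jInvS R = 1 := by
  rw [mul_comm]; exact jInvS_mul_jqModC R

variable {R} in
theorem eq_jInvS_of_mul_eq_one {u : LaurentSeries R} (hu : u * jqModC R = 1) : u = jInvS R := by
  calc u = u * (jqModC R * jInvS R) := by rw [jqModC_mul_jInvS, mul_one]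
    _ = (u * jqModC R) * jInvS R := by ring
    _ = jInvS R := by rw [hu, one_mul]

variable {R} in
theorem coeffMap_jInvS {S : Type*} [CommRing S] (f : R →+* S) :
    coeffMap f (jInvS R) = jInvS S := by
  apply eq_jInvS_of_mul_eq_one
  rw [← coeffMap_jqModC f, ← map_mul, jInvS_mul_jqModC, map_one]

end Inverse

variable (A : ValuationSubring (AlgebraicClosure ℚ)) (N : ℕ)

local notation "πA" => IsLocalRing.residue A
local notation "kA" => IsLocalRing.ResidueField A

theorem isInfS_iff {y : LaurentSeries A} : IsInfS A y ↔ IntOverS (jInvS A) y := by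
  constructor
  · rintro ⟨u, hu, h⟩
    rwa [eq_jInvS_of_mul_eq_one hu] at h
  · intro h
    exact ⟨jInvS A, jInvS_mul_jqModC A, h⟩

theorem jqModC_mem_bar : jqModC (AlgebraicClosure ℚ) ∈ modularFunctionFieldBar N := by
  have h1 : jqModC ℚ ∈ modularFunctionFieldFull N := by
    rw [← modularFunctionFieldFullC_rat]; exact jqModC_mem_full ℚ N
  have := coeffEmb_mem_laurentBaseChange (AlgebraicClosure ℚ) h1
  rwa [coeffEmb, coeffMap_jqModC] at this

theorem jqModC_ne_zero' (K : Type*) [Field K] : jqModC K ≠ 0 :=
  jqModC_ne_zero_of_nontrivial K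

theorem jInvS_eq_inv (K : Type*) [Field K] : jInvS K = (jqModC K)⁻¹ :=
  eq_inv_of_mul_eq_one_left (jInvS_mul_jqModC K)

/-- `j` as an integral modular function -/
def jInt : IntFun A πA N :=
  ⟨jqModC A, by rw [coeffMap_jqModC]; exact jqModC_mem_bar N,
    by rw [coeffMap_jqModC]; exact jqModC_mem_full _ N⟩

/-- `j⁻¹` as an integral modular function -/
def jInvInt : IntFun A πA N :=
  ⟨jInvS A, by
      rw [coeffMap_jInvS, jInvS_eq_inv]
      exact inv_mem (jqModC_mem_bar N),
    by
      rw [coeffMap_jInvS, jInvS_eq_inv]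
      exact inv_mem (jqModC_mem_full _ N)⟩

@[simp] theorem coe_jInt : ((jInt A N : IntFun A πA N) : LaurentSeries A) = jqModC A := rfl

@[simp] theorem coe_jInvInt : ((jInvInt A N : IntFun A πA N) : LaurentSeries A) = jInvS A := rfl

theorem jInt_mul_jInvInt : jInt A N * jInvInt A N = 1 :=
  Subtype.ext (jqModC_mul_jInvS A)

/-- the chart `j ≠ ∞`: integral modular functions integral over `A[j]` -/
def finChart : Subalgebra A (IntFun A πA N) where
  carrier := {y | IsFinS A (y : LaurentSeries A)}
  mul_mem' := fun {_ _} ha hb => IntOverS.mul ha hb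
  add_mem' := fun {_ _} ha hb => IntOverS.add ha hb
  algebraMap_mem' := fun a => intOverS_C _ a

/-- the chart `j ≠ 0`: integral modular functions integral over `A[j⁻¹]` -/
def infChart : Subalgebra A (IntFun A πA N) where
  carrier := {y | IntOverS (jInvS A) (y : LaurentSeries A)}
  mul_mem' := fun {_ _} ha hb => IntOverS.mul ha hb
  add_mem' := fun {_ _} ha hb => IntOverS.add ha hb
  algebraMap_mem' := fun a => intOverS_C _ a

variable {A N}

theorem mem_finChart {y : IntFun A πA N} :
    y ∈ finChart A N ↔ IsFinS A (y : LaurentSeries A) := Iff.rfl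

theorem mem_infChart {y : IntFun A πA N} :
    y ∈ infChart A N ↔ IsInfS A (y : LaurentSeries A) := (isInfS_iff A).symm

theorem mem_infChart' {y : IntFun A πA N} :
    y ∈ infChart A N ↔ IntOverS (jInvS A) (y : LaurentSeries A) := Iff.rfl

variable (A N)

theorem jInt_mem_finChart : jInt A N ∈ finChart A N := intOverS_self _

theorem jInvInt_mem_infChart : jInvInt A N ∈ infChart A N := intOverS_self _

/-- **node_rim from the two modular charts** (helper518's theorem, instantiated). -/
theorem rim_of_twoCharts
    [HasPrincipalDivisors (AlgebraicClosure ℚ) (modularFunctionFieldBar N)]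
    [HasPrincipalDivisors kA (modularFunctionFieldFullC kA N)]
    (h : TwoCharts πA (iotaF A πA N) (rhoF A πA N) (finChart A N) (infChart A N)
      (jInt A N) (jInvInt A N)) :
    ReductionInputsModL A N :=
  reductionInputsAlong_of_twoCharts h

end Fermat.Agent.S37.H508
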