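import Fermat.Agent.S37.H518.Wrap
import Fermat.Agent.S37.Core.Geo

/-!
# S37 / node_rim assembly (helper508, deputy): the two modular charts — DEFINITIONS

Concrete instantiation of helper518's `TwoCharts` (landed, `Fermat/Agent/S37/H518`) for the
modular function field.  Notation: `A` a valuation subring of `ℚ̄`, `π = residue A`, `k = A/𝔪`,
`V = H518.IntFun A π N ⊆ A((q))` (integral modular functions with reduction in `F_k`).

* `IsFinS y`  : `y ∈ A((q))` is integral over `A[j]`   (same predicate as `Core.IntElt.IsFin`);
* `IsInfS y`  : `y ∈ A((q))` is integral over `A[j⁻¹]` (same predicate as `Core.IntElt.IsInf`);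
* `jInt`, `jInvInt` : `j`, `j⁻¹` as elements of `V`;
* `finChart`, `infChart` : the two chart algebras `B₀`, `B₁` (subalgebras of `V`).

Everything in this file is fully proved.
-/

set_option autoImplicit false

noncomputable section

namespace Fermat.Agent.S37.H508

open ModularCurve HahnSeries AlgebraicCurve Polynomial Fermat.Agent.S37.H518
open Fermat.Agent.S37.Core

variable {R : Type*} [CommRing R]

/-- evaluation `R[X] → R((q))`, `X ↦ u` (same as `Core.evalSeries` for a valuation ring) -/
def evalS (u : LaurentSeries R) : R[X] →+* LaurentSeries R :=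
  Polynomial.eval₂RingHom (HahnSeries.C : R →+* LaurentSeries R) u

@[simp] theorem evalS_X (u : LaurentSeries R) : evalS u X = u := by
  simp [evalS]

@[simp] theorem evalS_C (u : LaurentSeries R) (a : R) : evalS u (C a) = HahnSeries.C a := by
  simp [evalS]

/-- `y` is integral over `R[u]` inside `R((q))` -/
def IntOverS (u y : LaurentSeries R) : Prop := (evalS u).IsIntegralElem y

theorem IntOverS.add {u y z : LaurentSeries R} (hy : IntOverS u y) (hz : IntOverS u z) :
    IntOverS u (y + z) := RingHom.IsIntegralElem.add _ hy hz

theorem IntOverS.mul {u y z : LaurentSeries R} (hy : IntOverS u y) (hz : IntOverS u z) :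
    IntOverS u (y * z) := RingHom.IsIntegralElem.mul _ hy hz

theorem IntOverS.neg {u y : LaurentSeries R} (hy : IntOverS u y) : IntOverS u (-y) :=
  RingHom.IsIntegralElem.neg _ hy

theorem IntOverS.sub {u y z : LaurentSeries R} (hy : IntOverS u y) (hz : IntOverS u z) :
    IntOverS u (y - z) := RingHom.IsIntegralElem.sub _ hy hz

theorem intOverS_map (u : LaurentSeries R) (p : R[X]) : IntOverS u (evalS u p) :=
  (evalS u).isIntegralElem_map

theorem intOverS_self (u : LaurentSeries R) : IntOverS u u := by
  have := intOverS_map u X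
  rwa [evalS_X] at this

theorem intOverS_C (u : LaurentSeries R) (a : R) : IntOverS u (HahnSeries.C a) := by
  have := intOverS_map u (C a)
  rwa [evalS_C] at this

theorem intOverS_zero (u : LaurentSeries R) : IntOverS u 0 := (evalS u).isIntegralElem_zero

theorem intOverS_one (u : LaurentSeries R) : IntOverS u 1 := (evalS u).isIntegralElem_one

/-- the inverse of `j` in `R((q))`: `j = q⁻¹ · (unit power series)` -/
def jInvS (R : Type*) [CommRing R] : LaurentSeries R :=
  HahnSeries.single (1 : ℤ) (1 : R) *
    HahnSeries.ofPowerSeries ℤ R (PowerSeries.invOfUnit (jNum.map (Int.castRingHom R)) 1)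

variable (A : ValuationSubring (AlgebraicClosure ℚ)) (N : ℕ)

/-- `y` is integral over `A[j]` -/
def IsFinS (y : LaurentSeries A) : Prop := IntOverS (jqModC A) y

/-- `y` is integral over `A[j⁻¹]` -/
def IsInfS (y : LaurentSeries A) : Prop :=
  ∃ u : LaurentSeries A, u * jqModC A = 1 ∧ IntOverS u y

variable {A N}

theorem isFin_iff (c : IntElt A N) : c.IsFin ↔ IsFinS A c.y := Iff.rfl

theorem isInf_iff (c : IntElt A N) : c.IsInf ↔ IsInfS A c.y := Iff.rfl

end Fermat.Agent.S37.H508
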